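/-
S58 squad, brick (E-ii) (helper22): general lemmas on reduction of torsion points of an integral
Weierstrass model `W` modulo a valuation subring `A` of a field `L`.

`κ = IsLocalRing.ResidueField A`, `res = IsLocalRing.residue A`,
`W_L = W.map (Int.castRingHom L)`, `W_κ = W.map (Int.castRingHom κ)`.

* `equation_res`    : an `A`-integral point of `W_L` reduces to a solution of the equation of `W_κ`;
* `reduce_torsion`  : if `(a, b)` is killed by `m ≥ 1` and its reduction is a nonsingular point,
                      the reduction is killed by `m` (division polynomials commute with base change);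
* `not_two_torsion` : a nonsingular point killed by an odd number is not a `2`-torsion point;
* `exists_lift`     : (`L` algebraically closed, `m` a unit of `A`, `Δ ≠ 0` in `L`) every
                      nonsingular point of `W_κ` killed by `m` lifts to an `A`-integral point of
                      `W_L` killed by `m`.
No good-reduction hypothesis anywhere: the lemmas apply at nodal primes as well.
-/
import Mathlib
import Fermat.Prelude.Def_FLTPrelim_Modularity
import Fermat.Agent.ES.EC.LiftTorsion29
import Fermat.Agent.DivPoly.CountFinal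

set_option autoImplicit false

open WeierstrassCurve WeierstrassCurve.Affine Polynomial

namespace Fermat.Agent.InertiaAsm.Reduce

section Basic

variable {L : Type*} [Field L] (A : ValuationSubring L) (W : WeierstrassCurve ℤ)

/-- the model over the valuation ring. -/
noncomputable abbrev WA : WeierstrassCurve A := W.map (Int.castRingHom A)

/-- the model over the residue field. -/
noncomputable abbrev Wκ : WeierstrassCurve (IsLocalRing.ResidueField A) :=
  W.map (Int.castRingHom (IsLocalRing.ResidueField A))

theorem map_subtype : (WA A W).map A.subtype = W.map (Int.castRingHom L) := by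
  rw [WeierstrassCurve.map_map,
    show A.subtype.comp (Int.castRingHom A) = Int.castRingHom L from RingHom.ext_int _ _]

theorem map_residue : (WA A W).map (IsLocalRing.residue A) = Wκ A W := by
  rw [WeierstrassCurve.map_map,
    show (IsLocalRing.residue A).comp (Int.castRingHom A)
      = Int.castRingHom (IsLocalRing.ResidueField A) from RingHom.ext_int _ _]

theorem eval_map_apply {R S : Type*} [CommRing R] [CommRing S] (f : R →+* S) (q : R[X]) (r : R) :
    (q.map f).eval (f r) = f (q.eval r) := by
  rw [eval_map, eval₂_at_apply]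

/-- An `A`-integral solution of the Weierstrass equation over `L` is a solution over `A`. -/
theorem equation_WA {a b : A}
    (h : (W.map (Int.castRingHom L)).toAffine.Equation (a : L) (b : L)) :
    (WA A W).toAffine.Equation a b := by
  rw [← map_subtype A W] at h
  exact (Affine.map_equation (W := (WA A W).toAffine) (f := A.subtype)
    Subtype.val_injective a b).mp h

/-- An `A`-integral point of `W_L` reduces to a solution of the equation of `W_κ`. -/
theorem equation_res {a b : A}
    (h : (W.map (Int.castRingHom L)).toAffine.Equation (a : L) (b : L)) :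
    (Wκ A W).toAffine.Equation (IsLocalRing.residue A a) (IsLocalRing.residue A b) := by
  have h1 := equation_WA A W h
  rw [← map_residue A W]
  exact Affine.Equation.map (IsLocalRing.residue A) h1

end Basic

section Torsion

variable {L : Type*} [Field L] [DecidableEq L] (A : ValuationSubring L) (W : WeierstrassCurve ℤ)
  [DecidableEq (IsLocalRing.ResidueField A)]

/-- The reduction of an integral point killed by `m` is killed by `m` (if it is nonsingular). -/
theorem reduce_torsion {a b : A}
    (h : (W.map (Int.castRingHom L)).toAffine.Nonsingular (a : L) (b : L))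
    {m : ℕ} (hm : 1 ≤ m) (hP : m • Point.some (a : L) (b : L) h = 0)
    (h' : (Wκ A W).toAffine.Nonsingular (IsLocalRing.residue A a) (IsLocalRing.residue A b)) :
    m • Point.some _ _ h' = 0 := by
  have h1 : ((W.map (Int.castRingHom L)).ΨSq (m : ℤ)).eval (a : L) = 0 :=
    (Fermat.Agent.DivPoly.CountFinal.nsmul_eq_zero_iff h m hm).mp hP
  have h2 : ((WA A W).ΨSq (m : ℤ)).eval a = 0 := by
    apply Subtype.val_injective
    have := eval_map_apply A.subtype ((WA A W).ΨSq (m : ℤ)) a
    rw [← WeierstrassCurve.map_ΨSq, map_subtype] at this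
    rw [ValuationSubring.subtype_apply] at this
    rw [ZeroMemClass.coe_zero, ← h1]
    exact this.symm
  refine (Fermat.Agent.DivPoly.CountFinal.nsmul_eq_zero_iff h' m hm).mpr ?_
  have := eval_map_apply (IsLocalRing.residue A) ((WA A W).ΨSq (m : ℤ)) a
  rw [← WeierstrassCurve.map_ΨSq, map_residue, h2, map_zero] at this
  exact this

end Torsion

section TwoTorsion

variable {F : Type*} [Field F] [DecidableEq F] {V : Affine F}

/-- A nonsingular affine point killed by an odd number is not a `2`-torsion point. -/
theorem not_two_torsion {x y : F} (h : V.Nonsingular x y) {m : ℕ} (hm : Odd m)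
    (hP : m • Point.some x y h = 0) : 2 * y + V.a₁ * x + V.a₃ ≠ 0 := by
  intro h0
  have hneg : y = V.negY x y := by
    rw [Affine.negY]; linear_combination h0
  have h2 : (2 : ℕ) • (Point.some x y h : V.Point) = 0 := by
    rw [two_nsmul]
    exact Point.add_of_Y_eq rfl hneg
  obtain ⟨k, hk⟩ := hm
  have e1 : m • (Point.some x y h : V.Point)
      = k • ((2 : ℕ) • (Point.some x y h : V.Point)) + Point.some x y h := by
    rw [hk, add_smul, mul_comm, mul_smul, one_smul]
  rw [hP, h2, nsmul_zero, zero_add] at e1
  exact Point.some_ne_zero h e1.symm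

end TwoTorsion

section Lift

open Fermat.Agent.ES.EC.LiftTorsion29

variable {L : Type*} [Field L] [IsAlgClosed L] [DecidableEq L] (A : ValuationSubring L)
  (W : WeierstrassCurve ℤ) [DecidableEq (IsLocalRing.ResidueField A)]

/-- **Lifting torsion points.**  Every nonsingular point of the reduction killed by `m` (a unit
of `A`) lifts to an `A`-integral point of `W_L` killed by `m`. -/
theorem exists_lift (hΔ : (W.map (Int.castRingHom L)).Δ ≠ 0) {m : ℕ} (hm : 1 ≤ m)
    (hmu : IsUnit ((m : ℤ) : A)) {x' y' : IsLocalRing.ResidueField A}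
    (h' : (Wκ A W).toAffine.Nonsingular x' y') (hP' : m • Point.some x' y' h' = 0) :
    ∃ (a b : A) (h : (W.map (Int.castRingHom L)).toAffine.Nonsingular (a : L) (b : L)),
      m • Point.some (a : L) (b : L) h = 0 ∧
        IsLocalRing.residue A a = x' ∧ IsLocalRing.residue A b = y' := by
  set res := IsLocalRing.residue A with hres
  have hΨ' : ((Wκ A W).ΨSq (m : ℤ)).eval x' = 0 :=
    (Fermat.Agent.DivPoly.CountFinal.nsmul_eq_zero_iff h' m hm).mp hP'
  have hmapres : ((WA A W).ΨSq (m : ℤ)).map res = (Wκ A W).ΨSq (m : ℤ) := by
    rw [← WeierstrassCurve.map_ΨSq, map_residue]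
  have hroot : (((WA A W).ΨSq (m : ℤ)).map res).IsRoot x' := by
    rw [hmapres]; exact hΨ'
  have hlc : IsUnit ((WA A W).ΨSq (m : ℤ)).leadingCoeff := by
    rw [WeierstrassCurve.leadingCoeff_ΨSq (WA A W) hmu.ne_zero]
    exact hmu.pow 2
  obtain ⟨a, ha, hat⟩ := exists_root_lift A _ hlc x' hroot
  -- the `y`-coordinate
  set c1 : A := (W.a₁ : A) * a + (W.a₃ : A) with hc1
  set c0 : A := a ^ 3 + (W.a₂ : A) * a ^ 2 + (W.a₄ : A) * a + (W.a₆ : A) with hc0
  set hA' : A[X] := X ^ 2 + (C c1 * X + C (-c0)) with hhA
  have hmon : hA'.Monic :=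
    monic_X_pow_add (lt_of_le_of_lt (degree_linear_le) (by norm_num))
  have heq' := (Affine.equation_iff _ _).mp h'.1
  simp only [WeierstrassCurve.map_a₁, WeierstrassCurve.map_a₂, WeierstrassCurve.map_a₃,
    WeierstrassCurve.map_a₄, WeierstrassCurve.map_a₆, eq_intCast] at heq'
  have hcast : ∀ n : ℤ, res (n : A) = (n : IsLocalRing.ResidueField A) := fun n =>
    map_intCast res n
  have hrc1 : res c1 = (W.a₁ : IsLocalRing.ResidueField A) * x' + (W.a₃ : _) := by
    rw [hc1, map_add, map_mul, hcast, hcast, hat]
  have hrc0 : res c0 = x' ^ 3 + (W.a₂ : IsLocalRing.ResidueField A) * x' ^ 2 + (W.a₄ : _) * x' +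
      (W.a₆ : _) := by
    rw [hc0, map_add, map_add, map_add, map_mul, map_mul, map_pow, map_pow, hcast, hcast, hcast,
      hat]
  have hrooty : (hA'.map res).IsRoot y' := by
    rw [hhA, IsRoot]
    simp only [Polynomial.map_add, Polynomial.map_mul, Polynomial.map_pow, map_X, map_C,
      Polynomial.map_neg, eval_add, eval_mul, eval_pow, eval_X, eval_C, eval_neg, map_neg]
    rw [hrc1, hrc0]
    linear_combination heq'
  obtain ⟨b, hb, hbt⟩ := exists_root_lift_of_monic A _ hA' rfl hmon y' hrooty
  -- assemble
  have hcastL : ∀ n : ℤ, ((n : A) : L) = (n : L) := fun n => by simp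
  have hEq : (W.map (Int.castRingHom L)).toAffine.Equation (a : L) (b : L) := by
    rw [Affine.equation_iff]
    simp only [WeierstrassCurve.map_a₁, WeierstrassCurve.map_a₂, WeierstrassCurve.map_a₃,
      WeierstrassCurve.map_a₄, WeierstrassCurve.map_a₆, eq_intCast]
    rw [hhA, IsRoot] at hb
    simp only [eval_add, eval_mul, eval_pow, eval_X, eval_C, hc1, hc0] at hb
    have hb' := congrArg (A.subtype) hb
    simp only [map_add, map_mul, map_pow, map_neg, map_zero, ValuationSubring.subtype_apply,
      hcastL] at hb'
    linear_combination hb'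
  have hns : (W.map (Int.castRingHom L)).toAffine.Nonsingular (a : L) (b : L) :=
    (Affine.equation_iff_nonsingular_of_Δ_ne_zero hΔ).mp hEq
  refine ⟨a, b, hns, ?_, hat, hbt⟩
  refine (Fermat.Agent.DivPoly.CountFinal.nsmul_eq_zero_iff hns m hm).mpr ?_
  have h3 := eval_map_apply A.subtype ((WA A W).ΨSq (m : ℤ)) a
  rw [← WeierstrassCurve.map_ΨSq, map_subtype] at h3
  rw [IsRoot] at ha
  rw [ha, map_zero] at h3
  exact h3

end Lift

end Fermat.Agent.InertiaAsm.Reduce
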