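/-
S58 squad, brick (E-ii) (helper22): torsion points of an integral Weierstrass model `W` over `ℚ̄`
fixed by the inertia group at a valuation subring `A` of `ℚ̄`.

* `fixed_of_unit`        : an integral torsion point (order a unit of `A`) which is not `2`-torsion
                           modulo the maximal ideal is fixed by inertia;
* `inertia_fixed_good`   : at a prime of good reduction, inertia fixes every point of odd order
                           prime to the residue characteristic;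
* `exists_fixed_of_residue` : every finite set of nonsingular points of the special fibre killed by
                           an odd `m` (unit of `A`) lifts to a set of the same size of
                           inertia-fixed points of `W(ℚ̄)` killed by `m` (no reduction hypothesis);
* `exists_inertia_fixed_mult` : at a multiplicative prime `q` (`q ∣ Δ`, `q ∤ c₄`) there are at least
                           `λⁿ` inertia-fixed points killed by `λⁿ` (`λ ≠ q` an odd prime).
-/
import Mathlib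
import Fermat.Prelude.Def_FLTPrelim_Modularity
import Fermat.Prelude.Def_FLTPrelim_Ramification
import Fermat.Prelude.Def_FLTPrelim_GaloisRep
import Fermat.Agent.S05.Inertia
import Fermat.Agent.S05.Kernel
import Fermat.Agent.ES.EC.CongE1_20
import Fermat.Agent.ES.EC.TorsionLift20
import Fermat.Agent.ES.KRON.KronInst10
import Fermat.Agent.ES.Q58.NodeCount15
import Fermat.Agent.InertiaAsm.Reduce

set_option autoImplicit false

open WeierstrassCurve WeierstrassCurve.Affine Polynomial

namespace Fermat.Agent.InertiaAsm.Fixed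

local notation "Qb" => AlgebraicClosure ℚ
local notation "GQ" => (AlgebraicClosure ℚ ≃ₐ[ℚ] AlgebraicClosure ℚ)

open Fermat.Agent.S05.Inertia Fermat.Agent.S05.Kernel Fermat.Agent.ES.EC.CongE1_20
open Fermat.Agent.ES.EC Fermat.Agent.InertiaAsm.Reduce

/-- the curve over `ℚ̄` used by the Prelude, as a base change from `ℤ`. -/
theorem curve_eq (W : WeierstrassCurve ℤ) :
    ((W.map (Int.castRingHom ℚ))⁄Qb) = (W.map (Int.castRingHom Qb)).toAffine :=
  TorsionLift20.baseChange_eq_map W

theorem integralCoeffs (W : WeierstrassCurve ℤ) (A : ValuationSubring Qb) :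
    IntegralCoeffs A.valuation ((W.map (Int.castRingHom ℚ))⁄Qb) := by
  rw [curve_eq]
  refine ⟨?_, ?_, ?_, ?_, ?_⟩
  · rw [WeierstrassCurve.map_a₁, eq_intCast]; exact valuation_intCast_le_one _
  · rw [WeierstrassCurve.map_a₂, eq_intCast]; exact valuation_intCast_le_one _
  · rw [WeierstrassCurve.map_a₃, eq_intCast]; exact valuation_intCast_le_one _
  · rw [WeierstrassCurve.map_a₄, eq_intCast]; exact valuation_intCast_le_one _
  · rw [WeierstrassCurve.map_a₆, eq_intCast]; exact valuation_intCast_le_one _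

/-- transport of a torsion point along an equality of curves. -/
theorem transport {F : Type*} [Field F] [DecidableEq F] {V V' : Affine F} (hV : V = V') {x y : F}
    (h : V.Nonsingular x y) {m : ℕ} (hP : m • Point.some x y h = 0) :
    ∃ h' : V'.Nonsingular x y, m • Point.some x y h' = 0 := by
  subst hV
  exact ⟨h, hP⟩

/-- **(L3)** An integral torsion point whose order is a unit of `A` and whose reduction is not a
`2`-torsion point is fixed by the inertia group of `A`. -/
theorem fixed_of_unit (W : WeierstrassCurve ℤ) {A : ValuationSubring Qb} {τ : GQ}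
    (hτ : τ ∈ A.inertiaSubgroupIn ℚ) {x y : Qb}
    (h : ((W.map (Int.castRingHom ℚ))⁄Qb).Nonsingular x y)
    (hx : A.valuation x ≤ 1) (hy : A.valuation y ≤ 1)
    (hu : A.valuation (2 * y + ((W.map (Int.castRingHom ℚ))⁄Qb).a₁ * x
      + ((W.map (Int.castRingHom ℚ))⁄Qb).a₃) = 1)
    {m : ℕ} (hm : A.valuation ((m : ℕ) : Qb) = 1) (hP : m • Point.some x y h = 0) :
    Point.map (W' := W.map (Int.castRingHom ℚ)) τ.toAlgHom (Point.some x y h)
      = Point.some x y h := by
  have hmap : Point.map (W' := W.map (Int.castRingHom ℚ)) τ.toAlgHom (Point.some x y h)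
      = Point.some (τ.toAlgHom x) (τ.toAlgHom y)
        ((WeierstrassCurve.Affine.baseChange_nonsingular (W.map (Int.castRingHom ℚ))
          (f := τ.toAlgHom) τ.toAlgHom.injective x y).mpr h) := rfl
  have hP' : m • Point.map (W' := W.map (Int.castRingHom ℚ)) τ.toAlgHom (Point.some x y h) = 0 := by
    rw [← map_nsmul, hP, map_zero]
  rw [hmap] at hP' ⊢
  exact eq_of_congruent_of_nsmul_eq_zero (integralCoeffs W A) _ h
    (valuation_sub_lt_one_rat hτ hx) (valuation_sub_lt_one_rat hτ hy) hu hm hP' hP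

/-- An element of `A` with nonzero residue has valuation `1`. -/
theorem valuation_eq_one_of_residue_ne_zero {L : Type*} [Field L] (A : ValuationSubring L) (u : A)
    (hu : IsLocalRing.residue A u ≠ 0) : A.valuation (u : L) = 1 := by
  have h1 : IsUnit u := by
    by_contra hnu
    exact hu ((IsLocalRing.residue_eq_zero_iff _).mpr ((IsLocalRing.mem_maximalIdeal _).mpr hnu))
  exact (ValuationSubring.valuation_eq_one_iff A u).mp h1

/-- the non-2-torsion condition read off the residue field. -/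
theorem valuation_unit_of_residue (W : WeierstrassCurve ℤ) (A : ValuationSubring Qb) (a b : A)
    (hne : 2 * IsLocalRing.residue A b + (Wκ A W).toAffine.a₁ * IsLocalRing.residue A a
      + (Wκ A W).toAffine.a₃ ≠ 0) :
    A.valuation (2 * (b : Qb) + ((W.map (Int.castRingHom ℚ))⁄Qb).a₁ * (a : Qb)
      + ((W.map (Int.castRingHom ℚ))⁄Qb).a₃) = 1 := by
  set u : A := b + b + ((W.a₁ : ℤ) : A) * a + ((W.a₃ : ℤ) : A) with hu
  have e : (2 * (b : Qb) + ((W.map (Int.castRingHom ℚ))⁄Qb).a₁ * (a : Qb)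
      + ((W.map (Int.castRingHom ℚ))⁄Qb).a₃) = (u : Qb) := by
    rw [curve_eq]
    simp only [WeierstrassCurve.map_a₁, WeierstrassCurve.map_a₃, eq_intCast, hu]
    push_cast
    ring
  rw [e]
  apply valuation_eq_one_of_residue_ne_zero
  rw [hu]
  simp only [map_add, map_mul, map_intCast]
  intro h0
  apply hne
  simp only [WeierstrassCurve.map_a₁, WeierstrassCurve.map_a₃, eq_intCast]
  linear_combination h0

section Good

/-- **(c)**  At a prime `q` of good reduction, the inertia group at `q` fixes every point of odd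
order prime to `q`. -/
theorem inertia_fixed_good (W : WeierstrassCurve ℤ) {q m : ℕ} (hq : q.Prime)
    (hgood : ¬ (q : ℤ) ∣ W.Δ) (hm : Odd m) (hqm : ¬ q ∣ m)
    {A : ValuationSubring Qb} (hA : A.LiesOverPrime q) {τ : GQ}
    (hτ : τ ∈ A.inertiaSubgroupIn ℚ)
    (Q : ((W.map (Int.castRingHom ℚ))⁄Qb).Point) (hQ : m • Q = 0) :
    Point.map (W' := W.map (Int.castRingHom ℚ)) τ.toAlgHom Q = Q := by
  classical
  rcases Q with _ | ⟨x, y, h⟩
  · rfl
  have hvm : A.valuation ((m : ℕ) : Qb) = 1 := valuation_natCast_eq_one hq hA hqm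
  have hint := integralCoeffs W A
  have hvx : A.valuation x ≤ 1 := x_integral_of_nsmul_eq_zero hint h hvm hQ
  have hvy : A.valuation y ≤ 1 := by
    by_contra hy
    exact absurd (vx_of_vy hint h.1 (not_le.mp hy)) (not_lt.mpr hvx)
  have hxA : x ∈ A := (A.valuation_le_one_iff x).mp hvx
  have hyA : y ∈ A := (A.valuation_le_one_iff y).mp hvy
  -- the reduction
  obtain ⟨h0, hQ0⟩ : ∃ h0 : (W.map (Int.castRingHom Qb)).toAffine.Nonsingular
      ((⟨x, hxA⟩ : A) : Qb) ((⟨y, hyA⟩ : A) : Qb), m • Point.some _ _ h0 = 0 :=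
    transport (curve_eq W) h hQ
  have heq := equation_res A W h0.1
  have hΔκ : (Wκ A W).Δ ≠ 0 := by
    rw [WeierstrassCurve.map_Δ, eq_intCast]
    intro hzero
    have : Fact q.Prime := ⟨hq⟩
    have h1 : LiftTorsion29.primeEmb A hq hA ((W.Δ : ℤ) : ZMod q) = 0 := by
      rw [map_intCast]; exact hzero
    have h2 : ((W.Δ : ℤ) : ZMod q) = 0 := (map_eq_zero _).mp h1
    exact hgood ((ZMod.intCast_zmod_eq_zero_iff_dvd _ q).mp h2)
  have hns : (Wκ A W).toAffine.Nonsingular (IsLocalRing.residue A ⟨x, hxA⟩)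
      (IsLocalRing.residue A ⟨y, hyA⟩) :=
    (Affine.equation_iff_nonsingular_of_Δ_ne_zero hΔκ).mp heq
  have hred := reduce_torsion A W h0 hm.pos hQ0 hns
  have hne := not_two_torsion hns hm hred
  have hu := valuation_unit_of_residue W A ⟨x, hxA⟩ ⟨y, hyA⟩ hne
  exact fixed_of_unit W hτ h hvx hvy hu hvm hQ

end Good

section Lift

/-- the relation "the point `Q` of `W(ℚ̄)` reduces to the point `R` of the special fibre". -/
def RedTo (W : WeierstrassCurve ℤ) (A : ValuationSubring Qb)
    [DecidableEq (IsLocalRing.ResidueField A)]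
    (Q : ((W.map (Int.castRingHom ℚ))⁄Qb).Point) (R : (Wκ A W).toAffine.Point) : Prop :=
  (Q = 0 ∧ R = 0) ∨
    ∃ (a b : A) (h : ((W.map (Int.castRingHom ℚ))⁄Qb).Nonsingular (a : Qb) (b : Qb))
      (h' : (Wκ A W).toAffine.Nonsingular (IsLocalRing.residue A a) (IsLocalRing.residue A b)),
      Q = Point.some _ _ h ∧ R = Point.some _ _ h'

theorem RedTo.unique {W : WeierstrassCurve ℤ} {A : ValuationSubring Qb}
    [DecidableEq (IsLocalRing.ResidueField A)]
    {Q : ((W.map (Int.castRingHom ℚ))⁄Qb).Point} {R R' : (Wκ A W).toAffine.Point}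
    (h : RedTo W A Q R) (h' : RedTo W A Q R') : R = R' := by
  rcases h with ⟨hQ, hR⟩ | ⟨a, b, h1, h2, hQ, hR⟩
  · rcases h' with ⟨-, hR'⟩ | ⟨a', b', h1', h2', hQ', -⟩
    · rw [hR, hR']
    · rw [hQ] at hQ'
      exact absurd hQ'.symm (Point.some_ne_zero _)
  · rcases h' with ⟨hQ', -⟩ | ⟨a', b', h1', h2', hQ', hR'⟩
    · rw [hQ] at hQ'
      exact absurd hQ' (Point.some_ne_zero _)
    · rw [hQ, Point.some.injEq] at hQ'
      obtain ⟨ha, hb⟩ := hQ'
      have ha' : a = a' := Subtype.ext ha
      have hb' : b = b' := Subtype.ext hb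
      subst ha' hb'
      rw [hR, hR']

/-- Lifting one point of the special fibre killed by the odd number `m` (prime to `q`) to an
inertia-fixed point killed by `m`. -/
theorem exists_fixed_lift (W : WeierstrassCurve ℤ) (hΔ0 : W.Δ ≠ 0) {q m : ℕ} (hq : q.Prime)
    (hm : Odd m) (hqm : ¬ q ∣ m) {A : ValuationSubring Qb} (hA : A.LiesOverPrime q)
    [DecidableEq (IsLocalRing.ResidueField A)]
    (R : (Wκ A W).toAffine.Point) (hR : m • R = 0) :
    ∃ Q : ((W.map (Int.castRingHom ℚ))⁄Qb).Point, m • Q = 0 ∧ RedTo W A Q R ∧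
      ∀ τ ∈ A.inertiaSubgroupIn ℚ,
        Point.map (W' := W.map (Int.castRingHom ℚ)) τ.toAlgHom Q = Q := by
  rcases R with _ | ⟨x', y', h'⟩
  · exact ⟨0, nsmul_zero _, Or.inl ⟨rfl, rfl⟩, fun τ _ => rfl⟩
  have hvm : A.valuation ((m : ℕ) : Qb) = 1 := valuation_natCast_eq_one hq hA hqm
  have hmu : IsUnit (((m : ℕ) : ℤ) : A) := by
    apply LiftTorsion29.isUnit_intCast_of_not_dvd A hq hA
    exact_mod_cast hqm
  have hΔ : (W.map (Int.castRingHom Qb)).Δ ≠ 0 := by
    rw [WeierstrassCurve.map_Δ, eq_intCast]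
    exact_mod_cast hΔ0
  obtain ⟨a, b, h, hP, hat, hbt⟩ := exists_lift A W hΔ hm.pos hmu h' hR
  have hne := not_two_torsion h' hm hR
  rw [← hat, ← hbt] at hne
  have hu := valuation_unit_of_residue W A a b hne
  have hvx : A.valuation (a : Qb) ≤ 1 := (A.valuation_le_one_iff _).mpr a.2
  have hvy : A.valuation (b : Qb) ≤ 1 := (A.valuation_le_one_iff _).mpr b.2
  -- transport to the Prelude's curve
  obtain ⟨h1, hP1⟩ : ∃ (h1 : ((W.map (Int.castRingHom ℚ))⁄Qb).Nonsingular (a : Qb) (b : Qb)),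
      m • Point.some (a : Qb) (b : Qb) h1 = 0 := transport (curve_eq W).symm h hP
  refine ⟨Point.some _ _ h1, hP1, Or.inr ⟨a, b, h1, ?_, rfl, ?_⟩, ?_⟩
  · rw [hat, hbt]; exact h'
  · subst hat hbt; rfl
  · intro τ hτ
    exact fixed_of_unit W hτ h1 hvx hvy hu hvm hP1

/-- **Lifting finite sets.**  A finite set of points of the special fibre killed by the odd number
`m` (prime to `q`) lifts to a set of the same cardinality of inertia-fixed points of `W(ℚ̄)`
killed by `m`.  No hypothesis on the reduction type. -/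
theorem exists_fixed_of_residue (W : WeierstrassCurve ℤ) (hΔ0 : W.Δ ≠ 0) {q m : ℕ} (hq : q.Prime)
    (hm : Odd m) (hqm : ¬ q ∣ m) {A : ValuationSubring Qb} (hA : A.LiesOverPrime q)
    [DecidableEq (IsLocalRing.ResidueField A)]
    (S' : Finset (Wκ A W).toAffine.Point) (hS' : ∀ R ∈ S', m • R = 0) :
    ∃ S : Finset ((W.map (Int.castRingHom ℚ))⁄Qb).Point, S.card = S'.card ∧
      ∀ Q ∈ S, m • Q = 0 ∧ ∀ τ ∈ A.inertiaSubgroupIn ℚ,
        Point.map (W' := W.map (Int.castRingHom ℚ)) τ.toAlgHom Q = Q := by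
  classical
  have key : ∀ R ∈ S', ∃ Q : ((W.map (Int.castRingHom ℚ))⁄Qb).Point, m • Q = 0 ∧ RedTo W A Q R ∧
      ∀ τ ∈ A.inertiaSubgroupIn ℚ,
        Point.map (W' := W.map (Int.castRingHom ℚ)) τ.toAlgHom Q = Q :=
    fun R hR => exists_fixed_lift W hΔ0 hq hm hqm hA R (hS' R hR)
  choose! f hf using key
  have hinj : Set.InjOn f S' := by
    intro R hR R' hR' hRR'
    have h1 := (hf R hR).2.1
    have h2 := (hf R' hR').2.1
    rw [← hRR'] at h2
    exact h1.unique h2
  refine ⟨S'.image f, Finset.card_image_of_injOn hinj, ?_⟩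
  intro Q hQ
  obtain ⟨R, hR, rfl⟩ := Finset.mem_image.mp hQ
  exact ⟨(hf R hR).1, (hf R hR).2.2⟩

end Lift

section Mult

/-- **(d)**  At a prime `q` of multiplicative reduction (`q ∣ Δ`, `q ∤ c₄`) there are, for every
odd prime `λ ≠ q` and every `n`, at least `λⁿ` points of `W(ℚ̄)` killed by `λⁿ` and fixed by the
inertia group of any valuation subring over `q`. -/
theorem exists_inertia_fixed_mult (W : WeierstrassCurve ℤ) (hΔ0 : W.Δ ≠ 0) {q lam : ℕ}
    (hq : q.Prime) (hlam : lam.Prime) (hlam2 : lam ≠ 2) (hne : lam ≠ q)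
    (hΔ : (q : ℤ) ∣ W.Δ) (hc₄ : ¬ (q : ℤ) ∣ W.c₄) (n : ℕ)
    {P : ValuationSubring Qb} (hP : P.LiesOverPrime q) :
    ∃ S : Finset ((W.map (Int.castRingHom ℚ))⁄Qb).Point, lam ^ n ≤ S.card ∧
      ∀ Q ∈ S, lam ^ n • Q = 0 ∧ ∀ τ ∈ P.inertiaSubgroupIn ℚ,
        Point.map (W' := W.map (Int.castRingHom ℚ)) τ.toAlgHom Q = Q := by
  classical
  have : Fact q.Prime := ⟨hq⟩
  let _ : Algebra (ZMod q) (IsLocalRing.ResidueField P) :=
    (LiftTorsion29.primeEmb P hq hP).toAlgebra
  have : IsAlgClosed (IsLocalRing.ResidueField P) :=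
    Fermat.Agent.ES.KRON.KronInst10.isAlgClosed_residueField P
  have hcurve : ((W.reductionMod q)⁄(IsLocalRing.ResidueField P)) = Wκ P W := by
    change (W.map (Int.castRingHom (ZMod q))).map
      (algebraMap (ZMod q) (IsLocalRing.ResidueField P)) = _
    rw [WeierstrassCurve.map_map]
    congr 1
    exact RingHom.ext_int _ _
  have hnode : ∃ S' : Finset (Wκ P W).toAffine.Point,
      lam ^ n ≤ S'.card ∧ ∀ R ∈ S', (lam ^ n) • R = 0 := by
    rw [← hcurve]
    exact Fermat.Agent.ES.Q58.NodeCount15.exists_torsion_node W hΔ hc₄ hlam hne n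
      (IsLocalRing.ResidueField P)
  obtain ⟨S', hcard, hS'⟩ := hnode
  have hodd : Odd (lam ^ n) := (hlam.odd_of_ne_two hlam2).pow
  have hqm : ¬ q ∣ lam ^ n := fun hd =>
    hne ((Nat.prime_dvd_prime_iff_eq hq hlam).mp (hq.dvd_of_dvd_pow hd)).symm
  obtain ⟨S, hSc, hS⟩ := exists_fixed_of_residue W hΔ0 hq hodd hqm hP S' hS'
  exact ⟨S, by rw [hSc]; exact hcard, hS⟩

end Mult

end Fermat.Agent.InertiaAsm.Fixed
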