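/-
S58 squad, brick (E-ii) (helper22): assembly of `ECIface12.ECFacts.inertia` for a semistable
integral Weierstrass model `W` with `Δ ≠ 0`.

* `inertiaCong_of_fixed` : if for every `n` and every place `P` over `q` there are at least `λⁿ`
  points of `W(ℚ̄)` killed by `λⁿ` and fixed by the inertia group of `P`, then
  `ECIface12.InertiaCong W λ q` (via `CoordField13.torsField` and `WeakLink25.weakLink`);
* `exists_inertia_fixed_good` : the hypothesis at a prime of good reduction;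
* `ecFacts_inertia` : the field `inertia` of `ECIface12.ECFacts W` (semistable `W`, `Δ ≠ 0`).
-/
import Mathlib
import Fermat.Agent.ES.Q58.WeakLink25
import Fermat.Agent.ES.Q58.CoordField13
import Fermat.Agent.ES.Q58.ECIface12
import Fermat.Agent.InertiaAsm.Fixed

set_option autoImplicit false

open WeierstrassCurve WeierstrassCurve.Affine WeierstrassCurve.Affine.Point

namespace Fermat.Agent.InertiaAsm.Main

local notation "Qb" => AlgebraicClosure ℚ
local notation "GQ" => (AlgebraicClosure ℚ ≃ₐ[ℚ] AlgebraicClosure ℚ)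

open Fermat.Agent.ES.Q58 Fermat.Agent.ES.Q58.ECIface12

/-- a power of an automorphism fixing a point fixes it. -/
theorem pow_smul_eq_self {E : WeierstrassCurve ℚ} {τ : GQ} {Q : (E⁄Qb).Point} (h : τ • Q = Q)
    (i : ℕ) : (τ ^ i) • Q = Q := by
  have h1 : τ ∈ MulAction.stabilizer GQ Q := MulAction.mem_stabilizer_iff.mpr h
  exact MulAction.mem_stabilizer_iff.mp (Subgroup.pow_mem _ h1 i)

/-- **(E-ii) from inertia-fixed torsion.** -/
theorem inertiaCong_of_fixed (W : WeierstrassCurve ℤ) {lam q : ℕ} (hlam : lam.Prime)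
    (hlam2 : lam ≠ 2)
    (H : ∀ n : ℕ, ∀ P : ValuationSubring Qb, P.LiesOverPrime q →
      ∃ S : Finset ((W.map (Int.castRingHom ℚ))⁄Qb).Point, lam ^ n ≤ S.card ∧
        ∀ Q ∈ S, lam ^ n • Q = 0 ∧ ∀ τ ∈ P.inertiaSubgroupIn ℚ,
          Point.map (W' := W.map (Int.castRingHom ℚ)) τ.toAlgHom Q = Q) :
    InertiaCong W lam q := by
  refine ⟨{lam}, fun n => ?_⟩
  have hodd : Odd (lam ^ n) := (hlam.odd_of_ne_two hlam2).pow
  refine ⟨CoordField13.torsField (W.map (Int.castRingHom ℚ)) (lam ^ n),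
    CoordField13.finiteDimensional_torsField hodd, ?_⟩
  intro P hP τ hτ ℓ A φ hℓ hℓT hgood hA hφ i hK
  obtain ⟨S, hcard, hS⟩ := H n P hP
  have hne : ℓ ≠ lam := by simpa using hℓT
  refine WeakLink25.weakLink W hℓ hlam hlam2 hne hgood hA hφ S ?_ hcard
  intro Q hQ
  obtain ⟨hQ0, hfix⟩ := hS Q hQ
  refine ⟨hQ0, ?_⟩
  have h1 : φ • Q = (τ ^ i) • Q := CoordField13.smul_eq_of_eqOn hK hQ0
  have h2 : τ • Q = Q := hfix τ hτ
  have h3 : φ • Q = Q := by rw [h1]; exact pow_smul_eq_self h2 i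
  exact h3

/-- At a prime of good reduction all the `λⁿ`-torsion is fixed by inertia (`λ ≠ q` odd). -/
theorem exists_inertia_fixed_good (W : WeierstrassCurve ℤ) (hΔ0 : W.Δ ≠ 0) {q lam : ℕ}
    (hq : q.Prime) (hlam : lam.Prime) (hlam2 : lam ≠ 2) (hne : lam ≠ q)
    (hgood : ¬ (q : ℤ) ∣ W.Δ) (n : ℕ)
    {P : ValuationSubring Qb} (hP : P.LiesOverPrime q) :
    ∃ S : Finset ((W.map (Int.castRingHom ℚ))⁄Qb).Point, lam ^ n ≤ S.card ∧
      ∀ Q ∈ S, lam ^ n • Q = 0 ∧ ∀ τ ∈ P.inertiaSubgroupIn ℚ,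
        Point.map (W' := W.map (Int.castRingHom ℚ)) τ.toAlgHom Q = Q := by
  classical
  have hodd : Odd (lam ^ n) := (hlam.odd_of_ne_two hlam2).pow
  have hqm : ¬ q ∣ lam ^ n := fun hd =>
    hne ((Nat.prime_dvd_prime_iff_eq hq hlam).mp (hq.dvd_of_dvd_pow hd)).symm
  have hΔE : (W.map (Int.castRingHom ℚ)).Δ ≠ 0 := by
    rw [WeierstrassCurve.map_Δ, eq_intCast]
    exact_mod_cast hΔ0
  have hfin : Finite (Submodule.torsionBy ℤ ((W.map (Int.castRingHom ℚ))⁄Qb).Point
      ((lam ^ n : ℕ) : ℤ)) := CoordField13.finite_torsionBy_odd hodd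
  have hcard := CoordField13.card_torsionBy_pow hΔE hlam hlam2 n
  let _ : Fintype (Submodule.torsionBy ℤ ((W.map (Int.castRingHom ℚ))⁄Qb).Point
      ((lam ^ n : ℕ) : ℤ)) := Fintype.ofFinite _
  refine ⟨Finset.univ.image (fun Q : Submodule.torsionBy ℤ
    ((W.map (Int.castRingHom ℚ))⁄Qb).Point ((lam ^ n : ℕ) : ℤ) => (Q : _)), ?_, ?_⟩
  · rw [Finset.card_image_of_injective _ Subtype.val_injective, Finset.card_univ,
      ← Nat.card_eq_fintype_card, hcard]
    exact Nat.pow_le_pow_right hlam.pos (by omega)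
  · intro Q hQ
    obtain ⟨Q', -, rfl⟩ := Finset.mem_image.mp hQ
    have hQ0 : lam ^ n • (Q' : ((W.map (Int.castRingHom ℚ))⁄Qb).Point) = 0 := by
      have := Q'.2
      rwa [Submodule.mem_torsionBy_iff, natCast_zsmul] at this
    exact ⟨hQ0, fun τ hτ => Fixed.inertia_fixed_good W hq hgood hodd hqm hP hτ _ hQ0⟩

/-- **(E-ii).**  The field `inertia` of `ECIface12.ECFacts W` for a semistable model. -/
theorem ecFacts_inertia (W : WeierstrassCurve ℤ) (hΔ0 : W.Δ ≠ 0) (hss : W.IsSemistableModel) :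
    ∀ q : ℕ, q.Prime → ∃ T : Finset ℕ, ∀ lam : ℕ, lam.Prime → lam ∉ T →
      InertiaCong W lam q := by
  intro q hq
  refine ⟨{2, q}, fun lam hlam hT => ?_⟩
  have hlam2 : lam ≠ 2 := fun h => hT (by rw [h]; exact Finset.mem_insert_self _ _)
  have hne : lam ≠ q := fun h =>
    hT (by rw [h]; exact Finset.mem_insert_of_mem (Finset.mem_singleton_self _))
  apply inertiaCong_of_fixed W hlam hlam2
  intro n P hP
  by_cases hΔ : (q : ℤ) ∣ W.Δ
  · exact Fixed.exists_inertia_fixed_mult W hΔ0 hq hlam hlam2 hne hΔ (hss q hq hΔ) n hP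
  · exact exists_inertia_fixed_good W hΔ0 hq hlam hlam2 hne hΔ n hP

end Fermat.Agent.InertiaAsm.Main
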